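import Mathlib

/-!
# S59 / cell TW, leaf CUSP (helper324): unipotent elements of `SL(2, ℤ)`

`unip t a c = 1 + t · v (Jv)ᵀ` (`v = (a, c)`) is the unipotent matrix
`[[1 - t a c, t a²], [-t c², 1 + t a c]]`; it fixes `v`.

* `unip_add`, `unip_nsmul`, `unip_zsmul`, `unip_scale` : `t ↦ unip t a c` is a homomorphism and
  `unip t (k a) (k c) = unip (t k²) a c`;
* `conj_unip`      : `g · unip t v · g⁻¹ = unip t (g v)` for `g ∈ SL(2, ℤ)`;
* `mul_unipMat`    : `m · unip (det m · t) v = unip t (m v) · m` for every integral matrix `m`;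
* `unip_mem_Gamma` : `unip t v ∈ Γ(M)` if `M ∣ t`;
* `exists_unip_of_trace_two` : every `γ ∈ SL(2, ℤ)` of trace `2` is `unip t a c`, `(a, c)` coprime;
* `sq_trace_two`   : if `(tr γ)² = 4` then `tr (γ²) = 2`;
* `exists_Gamma_conj` : coprime vectors congruent mod `M` are conjugate under `Γ(M)`;
* `content_cases`  : if `det m = ℓ` is prime and `v` is coprime, then `m v` is coprime or `m v = ℓ v'`
  with `v'` coprime.
-/

set_option autoImplicit false

namespace Fermat.Agent.S59.TW.H324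

open Matrix CongruenceSubgroup
open scoped MatrixGroups

/-- `U_t(a, c) = 1 + t · v (Jv)ᵀ`, `v = (a, c)`. -/
def unipMat (t a c : ℤ) : Matrix (Fin 2) (Fin 2) ℤ :=
  !![1 - t * a * c, t * a ^ 2; -(t * c ^ 2), 1 + t * a * c]

theorem det_unipMat (t a c : ℤ) : (unipMat t a c).det = 1 := by
  rw [unipMat, Matrix.det_fin_two_of]
  ring

/-- `unipMat` as an element of `SL(2, ℤ)`. -/
def unip (t a c : ℤ) : SL(2, ℤ) := ⟨unipMat t a c, det_unipMat t a c⟩

@[simp] theorem coe_unip (t a c : ℤ) :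
    ((unip t a c : SL(2, ℤ)) : Matrix (Fin 2) (Fin 2) ℤ) = unipMat t a c := rfl

theorem unip_apply_00 (t a c : ℤ) : (unip t a c) 0 0 = 1 - t * a * c := rfl
theorem unip_apply_01 (t a c : ℤ) : (unip t a c) 0 1 = t * a ^ 2 := rfl
theorem unip_apply_10 (t a c : ℤ) : (unip t a c) 1 0 = -(t * c ^ 2) := rfl
theorem unip_apply_11 (t a c : ℤ) : (unip t a c) 1 1 = 1 + t * a * c := rfl

theorem sl2_ext {g h : SL(2, ℤ)} (h00 : g 0 0 = h 0 0) (h01 : g 0 1 = h 0 1)
    (h10 : g 1 0 = h 1 0) (h11 : g 1 1 = h 1 1) : g = h := by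
  apply Subtype.ext
  ext i j
  fin_cases i <;> fin_cases j
  · exact h00
  · exact h01
  · exact h10
  · exact h11

theorem sl2_mul_apply (g h : SL(2, ℤ)) (i j : Fin 2) :
    (g * h) i j = g i 0 * h 0 j + g i 1 * h 1 j := by
  rw [Matrix.SpecialLinearGroup.coe_mul, Matrix.mul_apply, Fin.sum_univ_two]

theorem unip_zero (a c : ℤ) : unip 0 a c = 1 := by
  apply sl2_ext <;> simp [unip_apply_00, unip_apply_01, unip_apply_10, unip_apply_11]

theorem unip_add (s t a c : ℤ) : unip (s + t) a c = unip s a c * unip t a c := by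
  apply sl2_ext <;>
    simp only [sl2_mul_apply, unip_apply_00, unip_apply_01, unip_apply_10, unip_apply_11] <;> ring

theorem unip_neg (t a c : ℤ) : unip (-t) a c = (unip t a c)⁻¹ := by
  rw [eq_inv_iff_mul_eq_one, ← unip_add, neg_add_cancel, unip_zero]

theorem unip_nsmul (n : ℕ) (t a c : ℤ) : unip (n * t) a c = unip t a c ^ n := by
  induction n with
  | zero => simp [unip_zero]
  | succ n ih =>
    rw [pow_succ, ← ih, ← unip_add]
    congr 1
    push_cast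
    ring

theorem unip_zsmul (n : ℤ) (t a c : ℤ) : unip (n * t) a c = unip t a c ^ n := by
  obtain ⟨k, rfl | rfl⟩ := Int.eq_nat_or_neg n
  · rw [zpow_natCast, unip_nsmul]
  · rw [_root_.zpow_neg, zpow_natCast, ← unip_nsmul, ← unip_neg, neg_mul]

theorem unip_scale (t k a c : ℤ) : unip t (k * a) (k * c) = unip (t * k ^ 2) a c := by
  apply sl2_ext <;>
    simp only [unip_apply_00, unip_apply_01, unip_apply_10, unip_apply_11] <;> ring

theorem unip_neg_vec (t a c : ℤ) : unip t (-a) (-c) = unip t a c := by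
  apply sl2_ext <;>
    simp only [unip_apply_00, unip_apply_01, unip_apply_10, unip_apply_11] <;> ring

/-- `m · U_{det m · t}(v) = U_t(m v) · m` for every integral matrix `m`. -/
theorem mul_unipMat (m : Matrix (Fin 2) (Fin 2) ℤ) (t a c : ℤ) :
    m * unipMat (m.det * t) a c =
      unipMat t (m 0 0 * a + m 0 1 * c) (m 1 0 * a + m 1 1 * c) * m := by
  ext i j
  fin_cases i <;> fin_cases j <;>
    simp only [unipMat, Matrix.mul_apply, Fin.sum_univ_two, Matrix.det_fin_two, Matrix.of_apply,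
      Matrix.cons_val', Matrix.cons_val_zero, Matrix.cons_val_one, Matrix.cons_val_fin_one,
      Fin.zero_eta, Fin.mk_one] <;> ring

theorem sl2_det (g : SL(2, ℤ)) : g 0 0 * g 1 1 - g 0 1 * g 1 0 = 1 := by
  have := g.2
  rwa [Matrix.det_fin_two] at this

/-- `g · U_t(v) · g⁻¹ = U_t(g v)` for `g ∈ SL(2, ℤ)`. -/
theorem conj_unip (g : SL(2, ℤ)) (t a c : ℤ) :
    g * unip t a c * g⁻¹ = unip t (g 0 0 * a + g 0 1 * c) (g 1 0 * a + g 1 1 * c) := by
  rw [mul_inv_eq_iff_eq_mul]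
  apply Subtype.ext
  have h := mul_unipMat (g : Matrix (Fin 2) (Fin 2) ℤ) t a c
  rw [g.2, one_mul] at h
  exact h

theorem unip_mem_Gamma {M : ℕ} {t : ℤ} (ht : (M : ℤ) ∣ t) (a c : ℤ) : unip t a c ∈ Gamma M := by
  obtain ⟨s, rfl⟩ := ht
  rw [Gamma_mem]
  simp only [unip_apply_00, unip_apply_01, unip_apply_10, unip_apply_11]
  push_cast
  simp

theorem trace_unip (t a c : ℤ) : ((unip t a c : SL(2, ℤ)) : Matrix (Fin 2) (Fin 2) ℤ).trace = 2 := by
  rw [Matrix.trace_fin_two]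
  show (unip t a c) 0 0 + (unip t a c) 1 1 = 2
  rw [unip_apply_00, unip_apply_11]
  ring

/-! ## Elements of trace `±2` -/

theorem trace_sq_eq (γ : SL(2, ℤ)) :
    ((γ ^ 2 : SL(2, ℤ)) : Matrix (Fin 2) (Fin 2) ℤ).trace =
      ((γ : SL(2, ℤ)) : Matrix (Fin 2) (Fin 2) ℤ).trace ^ 2 - 2 := by
  rw [pow_two, Matrix.trace_fin_two, Matrix.trace_fin_two]
  show (γ * γ) 0 0 + (γ * γ) 1 1 = _
  rw [sl2_mul_apply, sl2_mul_apply]
  linear_combination (-2 : ℤ) * sl2_det γ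

/-- If `(tr γ)² = 4` then `tr (γ²) = 2`. -/
theorem sq_trace_two {γ : SL(2, ℤ)}
    (h : ((γ : SL(2, ℤ)) : Matrix (Fin 2) (Fin 2) ℤ).trace ^ 2 = 4) :
    ((γ ^ 2 : SL(2, ℤ)) : Matrix (Fin 2) (Fin 2) ℤ).trace = 2 := by
  rw [trace_sq_eq, h]
  norm_num

/-- An element of `SL(2, ℤ)` of trace `2` fixes a coprime vector. -/
theorem exists_fixed_vector {γ : SL(2, ℤ)}
    (h : ((γ : SL(2, ℤ)) : Matrix (Fin 2) (Fin 2) ℤ).trace = 2) :
    ∃ a c : ℤ, IsCoprime a c ∧ γ 0 0 * a + γ 0 1 * c = a ∧ γ 1 0 * a + γ 1 1 * c = c := by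
  rw [Matrix.trace_fin_two] at h
  have hd := sl2_det γ
  by_cases h0 : γ 0 1 = 0 ∧ γ 0 0 - 1 = 0
  · obtain ⟨h1, h2⟩ := h0
    refine ⟨0, 1, isCoprime_zero_left.mpr isUnit_one, ?_, ?_⟩
    · rw [h1]; ring
    · have h3 : γ 1 1 = 1 := by linarith
      rw [h3]; ring
  · have hg : 0 < Int.gcd (γ 0 1) (γ 0 0 - 1) := by
      rw [Int.gcd_pos_iff]
      by_contra hcon
      rw [not_or, not_not, not_not] at hcon
      exact h0 hcon
    obtain ⟨a, c', hac, ha, hc⟩ := Int.exists_gcd_one hg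
    set d : ℤ := (Int.gcd (γ 0 1) (γ 0 0 - 1) : ℤ) with hd'
    have hd0 : d ≠ 0 := by
      rw [hd']
      exact_mod_cast hg.ne'
    have hcop : IsCoprime a (-c') := (Int.isCoprime_iff_gcd_eq_one.mpr hac).neg_right
    refine ⟨a, -c', hcop, ?_, ?_⟩
    · apply mul_left_cancel₀ hd0
      have e1 : γ 0 0 = c' * d + 1 := by linarith
      rw [e1]
      have e2 : γ 0 1 = a * d := ha
      rw [e2]
      ring
    · apply mul_left_cancel₀ hd0
      have e1 : γ 0 0 = c' * d + 1 := by linarith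
      have e2 : γ 0 1 = a * d := ha
      have e3 : γ 1 1 = 1 - c' * d := by linarith
      rw [e1, e2, e3] at hd
      rw [e3]
      -- `hd : (c' d + 1)(1 - c' d) - a d γ₁₀ = 1`, i.e. `d (c'² d + a γ₁₀) = 0`
      have e4 : d * (c' ^ 2 * d + a * γ 1 0) = 0 := by linear_combination -hd
      have e5 : c' ^ 2 * d + a * γ 1 0 = 0 := by
        rcases mul_eq_zero.mp e4 with h5 | h5
        · exact absurd h5 hd0
        · exact h5
      linear_combination d * e5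

/-- An element of `SL(2, ℤ)` fixing the coprime vector `(a, c)` is `unip t a c`. -/
theorem exists_unip_of_fixes {γ : SL(2, ℤ)} {a c : ℤ} (hac : IsCoprime a c)
    (h1 : γ 0 0 * a + γ 0 1 * c = a) (h2 : γ 1 0 * a + γ 1 1 * c = c) :
    ∃ t : ℤ, γ = unip t a c := by
  obtain ⟨x, y, hxy⟩ := hac
  have hd := sl2_det γ
  -- `g₀ = [[a, -y], [c, x]]`
  have hg₀ : (!![a, -y; c, x] : Matrix (Fin 2) (Fin 2) ℤ).det = 1 := by
    rw [Matrix.det_fin_two_of]
    linear_combination hxy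
  set g₀ : SL(2, ℤ) := ⟨!![a, -y; c, x], hg₀⟩ with hg₀def
  have g00 : g₀ 0 0 = a := rfl
  have g01 : g₀ 0 1 = -y := rfl
  have g10 : g₀ 1 0 = c := rfl
  have g11 : g₀ 1 1 = x := rfl
  -- `h = g₀⁻¹ γ g₀` is `unip t 1 0`
  set P : ℤ := -(γ 0 0 * y) + γ 0 1 * x with hP
  set Q : ℤ := -(γ 1 0 * y) + γ 1 1 * x with hQ
  refine ⟨x * P + y * Q, ?_⟩
  have key : γ * g₀ = g₀ * unip (x * P + y * Q) 1 0 := by
    apply sl2_ext <;>
      simp only [sl2_mul_apply, unip_apply_00, unip_apply_01, unip_apply_10, unip_apply_11,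
        g00, g01, g10, g11]
    · linear_combination h1
    · rw [hP, hQ]
      linear_combination (y * (-(γ 1 0 * y) + γ 1 1 * x)) * h1
        - (y * (-(γ 0 0 * y) + γ 0 1 * x)) * h2 - y * (x * a + y * c) * hd
        - (y + (-(γ 0 0 * y) + γ 0 1 * x)) * hxy
    · linear_combination h2
    · rw [hP, hQ]
      linear_combination (-(x * (-(γ 1 0 * y) + γ 1 1 * x))) * h1
        + (x * (-(γ 0 0 * y) + γ 0 1 * x)) * h2 + x * (x * a + y * c) * hd
        + (x - (-(γ 1 0 * y) + γ 1 1 * x)) * hxy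
  have e : γ = g₀ * unip (x * P + y * Q) 1 0 * g₀⁻¹ := by
    rw [← key, mul_inv_cancel_right]
  rw [e, conj_unip, g00, g01, g10, g11]
  congr 1 <;> ring

/-- Every `γ ∈ SL(2, ℤ)` of trace `2` is `unip t a c` with `(a, c)` coprime. -/
theorem exists_unip_of_trace_two {γ : SL(2, ℤ)}
    (h : ((γ : SL(2, ℤ)) : Matrix (Fin 2) (Fin 2) ℤ).trace = 2) :
    ∃ t a c : ℤ, IsCoprime a c ∧ γ = unip t a c := by
  obtain ⟨a, c, hac, h1, h2⟩ := exists_fixed_vector h
  obtain ⟨t, ht⟩ := exists_unip_of_fixes hac h1 h2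
  exact ⟨t, a, c, hac, ht⟩

/-! ## Conjugacy under `Γ(M)` -/

/-- Coprime vectors which are congruent mod `M` are conjugate under `Γ(M)`. -/
theorem exists_Gamma_conj (M : ℕ) {a c a' c' : ℤ} (h : IsCoprime a c) (h' : IsCoprime a' c')
    (ha : (M : ℤ) ∣ a' - a) (hc : (M : ℤ) ∣ c' - c) :
    ∃ k : SL(2, ℤ), k ∈ Gamma M ∧ k 0 0 * a + k 0 1 * c = a' ∧ k 1 0 * a + k 1 1 * c = c' := by
  obtain ⟨x, y, hxy⟩ := h
  obtain ⟨x', y', hxy'⟩ := h'
  set s₀ : ℤ := y' * x - x' * y with hs₀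
  set E : ℤ := a' * s₀ - y' with hE
  set F : ℤ := c' * s₀ + x' with hF
  have hdet : (!![a' * x - E * c, a' * y + E * a; c' * x - F * c, c' * y + F * a] :
      Matrix (Fin 2) (Fin 2) ℤ).det = 1 := by
    rw [Matrix.det_fin_two_of, hE, hF]
    linear_combination (x' * a' + y' * c') * hxy + hxy'
  set k : SL(2, ℤ) := ⟨!![a' * x - E * c, a' * y + E * a; c' * x - F * c, c' * y + F * a], hdet⟩
    with hk
  have k00 : k 0 0 = a' * x - E * c := rfl
  have k01 : k 0 1 = a' * y + E * a := rfl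
  have k10 : k 1 0 = c' * x - F * c := rfl
  have k11 : k 1 1 = c' * y + F * a := rfl
  have hA : ((a' : ℤ) : ZMod M) = ((a : ℤ) : ZMod M) := by
    have := (ZMod.intCast_zmod_eq_zero_iff_dvd _ _).mpr ha
    push_cast at this
    exact sub_eq_zero.mp this
  have hC : ((c' : ℤ) : ZMod M) = ((c : ℤ) : ZMod M) := by
    have := (ZMod.intCast_zmod_eq_zero_iff_dvd _ _).mpr hc
    push_cast at this
    exact sub_eq_zero.mp this
  have hB : ((x : ℤ) : ZMod M) * a + y * c = 1 := by exact_mod_cast congrArg (Int.cast : ℤ → ZMod M) hxy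
  have hB' : ((x' : ℤ) : ZMod M) * a + y' * c = 1 := by
    have := congrArg (Int.cast : ℤ → ZMod M) hxy'
    push_cast at this
    rw [hA, hC] at this
    exact this
  refine ⟨k, ?_, ?_, ?_⟩
  · rw [Gamma_mem, k00, k01, k10, k11, hE, hF, hs₀]
    push_cast
    rw [hA, hC]
    refine ⟨?_, ?_, ?_, ?_⟩
    · linear_combination (1 - (c : ZMod M) * y') * hB + (c : ZMod M) * y * hB'
    · linear_combination ((a : ZMod M) * y') * hB - ((a : ZMod M) * y) * hB'
    · linear_combination ((c : ZMod M) * x') * hB - ((c : ZMod M) * x) * hB'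
    · linear_combination (1 - (a : ZMod M) * x') * hB + (a : ZMod M) * x * hB'
  · rw [k00, k01]
    linear_combination a' * hxy
  · rw [k10, k11]
    linear_combination c' * hxy

/-! ## The content of `m v` for `det m = ℓ` prime -/

/-- If `det m = ℓ` is prime and `v = (a, c)` is coprime, then `m v = ℓ v'` with `v'` coprime, or
`m v` is coprime. -/
theorem content_cases {ℓ : ℕ} (hℓ : ℓ.Prime) (m : Matrix (Fin 2) (Fin 2) ℤ) (hm : m.det = ℓ)
    {a c : ℤ} (hac : IsCoprime a c) :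
    (∃ a' c' : ℤ, IsCoprime a' c' ∧ m 0 0 * a + m 0 1 * c = ℓ * a' ∧
        m 1 0 * a + m 1 1 * c = ℓ * c') ∨
      (¬ ((ℓ : ℤ) ∣ m 0 0 * a + m 0 1 * c ∧ (ℓ : ℤ) ∣ m 1 0 * a + m 1 1 * c) ∧
        IsCoprime (m 0 0 * a + m 0 1 * c) (m 1 0 * a + m 1 1 * c)) := by
  obtain ⟨x, y, hxy⟩ := hac
  rw [Matrix.det_fin_two] at hm
  have hℓ0 : (ℓ : ℤ) ≠ 0 := by exact_mod_cast hℓ.ne_zero
  set A : ℤ := m 0 0 * a + m 0 1 * c with hA
  set C : ℤ := m 1 0 * a + m 1 1 * c with hC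
  -- `adj(m) (A, C) = ℓ (a, c)`
  have e1 : m 1 1 * A - m 0 1 * C = ℓ * a := by rw [hA, hC]; linear_combination a * hm
  have e2 : -(m 1 0 * A) + m 0 0 * C = ℓ * c := by rw [hA, hC]; linear_combination c * hm
  have e3 : (x * m 1 1 - y * m 1 0) * A + (-(x * m 0 1) + y * m 0 0) * C = ℓ := by
    linear_combination x * e1 + y * e2 + (ℓ : ℤ) * hxy
  by_cases hdiv : (ℓ : ℤ) ∣ A ∧ (ℓ : ℤ) ∣ C
  · left
    obtain ⟨⟨a', ha'⟩, ⟨c', hc'⟩⟩ := hdiv
    refine ⟨a', c', ⟨x * m 1 1 - y * m 1 0, -(x * m 0 1) + y * m 0 0, ?_⟩, ha', hc'⟩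
    apply mul_left_cancel₀ hℓ0
    rw [ha', hc'] at e3
    linear_combination e3
  · right
    refine ⟨hdiv, ?_⟩
    rw [Int.isCoprime_iff_gcd_eq_one]
    have h1 : ((Int.gcd A C : ℕ) : ℤ) ∣ (ℓ : ℤ) := by
      rw [← e3]
      exact Dvd.dvd.add (Dvd.dvd.mul_left (Int.gcd_dvd_left A C) _)
        (Dvd.dvd.mul_left (Int.gcd_dvd_right A C) _)
    have h2 : Int.gcd A C ∣ ℓ := Int.natCast_dvd_natCast.mp h1
    rcases (Nat.dvd_prime hℓ).mp h2 with h3 | h3
    · exact h3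
    · exfalso
      apply hdiv
      rw [← h3]
      exact ⟨Int.gcd_dvd_left A C, Int.gcd_dvd_right A C⟩

end Fermat.Agent.S59.TW.H324
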