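import Mathlib
import Fermat.Agent.S59.TW.H653.Diamond
import Fermat.Agent.S59.TW.H324.Unip

/-!
# S59 / cell TW, leaf CUSP (helper324): the boundary values of a class and the Hecke operators

For `Γ₁(M) ≤ K ≤ Γ₀(M)` and `φ ∈ X_K(A) = Hom(K, A)` put
`bdry hK φ a c = φ (unip M a c)`  (`unip M a c = 1 + M · v (Jv)ᵀ ∈ Γ(M) ⊆ K`, `v = (a, c)`).

* `bdry_smul_vec`  : `bdry φ (n v) = n² • bdry φ v`;
* `bdry_conj`      : `bdry φ (k v) = bdry φ v` for `k ∈ K`;
* `bdry_congr`     : `bdry φ v = bdry φ v'` for coprime `v ≡ v'` mod `M`;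
* `transfer_unipK` : for a coset system `ρ` of `K` with integral representatives `m i` of
  determinant `d`: `(T_ρ φ)(unip (d M) v) = ∑ i, bdry φ (m i v)`.
-/

set_option autoImplicit false

namespace Fermat.Agent.S59.TW.H324

open CongruenceSubgroup Matrix.SpecialLinearGroup ModularCurve.Period ModularForm
open Fermat.Agent.S29.H642 Fermat.Agent.S41.H761 Fermat.Agent.S59.TW.H653
open scoped MatrixGroups

variable {M : ℕ} {K : Subgroup SL(2, ℤ)} {A : Type*} [AddCommGroup A]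

theorem unip_mem_Gamma1 {t : ℤ} (ht : (M : ℤ) ∣ t) (a c : ℤ) : unip t a c ∈ Gamma1 M := by
  have h := (Gamma_mem (N := M)).mp (unip_mem_Gamma ht a c)
  rw [Gamma1_mem]
  exact ⟨h.1, h.2.2.2, h.2.2.1⟩

theorem Gamma_le_of_isMid (hK : IsMid M K) : Gamma M ≤ K := by
  intro g hg
  apply hK.ge
  have h := (Gamma_mem (N := M)).mp hg
  rw [Gamma1_mem]
  exact ⟨h.1, h.2.2.2, h.2.2.1⟩

/-- `unip t a c` as an element of `K` (`M ∣ t`). -/
def unipK (hK : IsMid M K) (t a c : ℤ) (ht : (M : ℤ) ∣ t) : K :=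
  ⟨unip t a c, hK.ge (unip_mem_Gamma1 ht a c)⟩

@[simp] theorem coe_unipK (hK : IsMid M K) (t a c : ℤ) (ht : (M : ℤ) ∣ t) :
    ((unipK hK t a c ht : K) : SL(2, ℤ)) = unip t a c := rfl

/-- The boundary value of `φ` at the vector `(a, c)`. -/
def bdry (hK : IsMid M K) (φ : Additive K →+ A) (a c : ℤ) : A :=
  φ (Additive.ofMul (unipK hK M a c (dvd_refl _)))

theorem unipK_zsmul (hK : IsMid M K) (n t a c : ℤ) (ht : (M : ℤ) ∣ t) :
    unipK hK (n * t) a c (Dvd.dvd.mul_left ht n) = unipK hK t a c ht ^ n := by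
  apply Subtype.ext
  rw [Subgroup.coe_zpow]
  exact unip_zsmul n t a c

theorem apply_unipK (hK : IsMid M K) (φ : Additive K →+ A) (n a c : ℤ)
    (h : (M : ℤ) ∣ n * M) :
    φ (Additive.ofMul (unipK hK (n * M) a c h)) = n • bdry hK φ a c := by
  have e : unipK hK (n * M) a c h = unipK hK M a c (dvd_refl _) ^ n :=
    unipK_zsmul hK n M a c (dvd_refl _)
  rw [e, ofMul_zpow, map_zsmul]
  rfl

theorem apply_unipK' (hK : IsMid M K) (φ : Additive K →+ A) {t : ℤ} (n a c : ℤ)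
    (h : (M : ℤ) ∣ t) (e : t = n * M) :
    φ (Additive.ofMul (unipK hK t a c h)) = n • bdry hK φ a c := by
  subst e
  exact apply_unipK hK φ n a c h

theorem bdry_smul_vec (hK : IsMid M K) (φ : Additive K →+ A) (n a c : ℤ) :
    bdry hK φ (n * a) (n * c) = (n ^ 2) • bdry hK φ a c := by
  have e : unipK hK M (n * a) (n * c) (dvd_refl _) =
      unipK hK (n ^ 2 * M) a c (Dvd.intro_left _ rfl) := by
    apply Subtype.ext
    show unip M (n * a) (n * c) = unip (n ^ 2 * M) a c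
    rw [unip_scale, mul_comm]
  unfold bdry
  rw [e, apply_unipK]
  rfl

theorem apply_conj (φ : Additive K →+ A) (k x : K) :
    φ (Additive.ofMul (k * x * k⁻¹)) = φ (Additive.ofMul x) := by
  rw [ofMul_mul, ofMul_mul, ofMul_inv, map_add, map_add, map_neg]
  abel

theorem bdry_conj (hK : IsMid M K) (φ : Additive K →+ A) (k : K) (a c : ℤ) :
    bdry hK φ ((k : SL(2, ℤ)) 0 0 * a + (k : SL(2, ℤ)) 0 1 * c)
      ((k : SL(2, ℤ)) 1 0 * a + (k : SL(2, ℤ)) 1 1 * c) = bdry hK φ a c := by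
  have e : unipK hK M ((k : SL(2, ℤ)) 0 0 * a + (k : SL(2, ℤ)) 0 1 * c)
      ((k : SL(2, ℤ)) 1 0 * a + (k : SL(2, ℤ)) 1 1 * c) (dvd_refl _) =
      k * unipK hK M a c (dvd_refl _) * k⁻¹ := by
    apply Subtype.ext
    show unip M _ _ = (k : SL(2, ℤ)) * unip M a c * (k : SL(2, ℤ))⁻¹
    rw [conj_unip]
  unfold bdry
  rw [e, apply_conj]

/-- The boundary value only depends on the coprime vector mod `M`. -/
theorem bdry_congr (hK : IsMid M K) (φ : Additive K →+ A) {a c a' c' : ℤ} (h : IsCoprime a c)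
    (h' : IsCoprime a' c') (ha : (M : ℤ) ∣ a' - a) (hc : (M : ℤ) ∣ c' - c) :
    bdry hK φ a' c' = bdry hK φ a c := by
  obtain ⟨k, hk, e1, e2⟩ := exists_Gamma_conj M h h' ha hc
  have := bdry_conj hK φ ⟨k, Gamma_le_of_isMid hK hk⟩ a c
  simp only [] at this
  rw [e1, e2] at this
  exact this

/-- The boundary value at `(a + b c, c)` (translation by an element of `Γ₁(M)`). -/
theorem bdry_shear (hK : IsMid M K) (φ : Additive K →+ A) (b a c : ℤ) :
    bdry hK φ (a + b * c) c = bdry hK φ a c := by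
  have hmem : unip b 1 0 ∈ Gamma1 M := by
    rw [Gamma1_mem, unip_apply_00, unip_apply_11, unip_apply_10]
    simp
  have := bdry_conj hK φ ⟨unip b 1 0, hK.ge hmem⟩ a c
  simp only [unip_apply_00, unip_apply_01, unip_apply_10, unip_apply_11] at this
  rw [← this]
  congr 1 <;> ring

/-! ## Coset systems with integral representatives -/

/-- The integral matrix `m` represents `X ∈ GL(2, ℝ)`. -/
def IsIntMat (X : GL (Fin 2) ℝ) (m : Matrix (Fin 2) (Fin 2) ℤ) : Prop :=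
  ∀ i j, (X : Matrix (Fin 2) (Fin 2) ℝ) i j = ((m i j : ℤ) : ℝ)

theorem mul_mapGL_of_isIntMat {X : GL (Fin 2) ℝ} {m : Matrix (Fin 2) (Fin 2) ℤ}
    (hX : IsIntMat X m) {δ k : SL(2, ℤ)}
    (e : m * (δ : Matrix (Fin 2) (Fin 2) ℤ) = (k : Matrix (Fin 2) (Fin 2) ℤ) * m) :
    X * mapGL ℝ δ = mapGL ℝ k * X := by
  have e' : ∀ i j, m i 0 * δ 0 j + m i 1 * δ 1 j = k i 0 * m 0 j + k i 1 * m 1 j := by
    intro i j
    have := congrFun (congrFun e i) j
    rwa [Matrix.mul_apply, Matrix.mul_apply, Fin.sum_univ_two, Fin.sum_univ_two] at this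
  apply gl_ext <;>
    · simp only [coe_mul_apply, coe_mapGL_apply, hX _ _]
      exact_mod_cast e' _ _

/-- **The transfer of a coset system on a unipotent element.**  For a coset system `ρ` of `K`
whose representatives are the integral matrices `m i` of determinant `d`:
`(T_ρ φ)(unip (d M) v) = ∑ i, bdry φ (m i v)`. -/
theorem transfer_unipK (hK : IsMid M K) {I : Type*} [Fintype I] {ρ : I → GL (Fin 2) ℝ}
    (h : IsCosetSystem (ιK K) (ιK K) ρ) (m : I → Matrix (Fin 2) (Fin 2) ℤ)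
    (hm : ∀ i, IsIntMat (ρ i) (m i)) (d : ℤ) (hd : ∀ i, (m i).det = d)
    (φ : Additive K →+ A) (a c : ℤ) :
    h.transfer φ (Additive.ofMul (unipK hK (d * M) a c (Dvd.intro_left _ rfl))) =
      ∑ i, bdry hK φ (m i 0 0 * a + m i 0 1 * c) (m i 1 0 * a + m i 1 1 * c) := by
  rw [IsCosetSystem.transfer_apply]
  refine Finset.sum_congr rfl fun i _ => ?_
  have e : ρ i * ιK K (unipK hK (d * M) a c (Dvd.intro_left _ rfl)) =
      ιK K (unipK hK M (m i 0 0 * a + m i 0 1 * c) (m i 1 0 * a + m i 1 1 * c) (dvd_refl _)) *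
        ρ i := by
    rw [ιK_apply, ιK_apply]
    apply mul_mapGL_of_isIntMat (hm i)
    have := mul_unipMat (m i) M a c
    rw [hd i] at this
    exact this
  rw [h.coc_eq e]
  rfl

end Fermat.Agent.S59.TW.H324
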