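import Mathlib
import Fermat.Agent.S59.TW.H324.Boundary

/-!
# S59 / cell TW, leaf CUSP (helper324): the boundary is Eisenstein

For `Γ₁(M) ≤ K ≤ Γ₀(M)`, a prime `ℓ ≡ 1` mod `M` and a torsion-free `A`:
`(T_ℓ φ)(γ) = (ℓ + 1) • φ(γ)` for every `φ ∈ Hom(K, A)` and every `γ ∈ K` with `(tr γ)² = 4`
(`TK_apply_parabolic`).  Also `T_ℓ`, `U_q` preserve the classes vanishing on these `γ`
(`TK_parabolic`, `UK_parabolic`), for every `ℓ ∤ M`, `q ∣ M`.
-/

set_option autoImplicit false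

namespace Fermat.Agent.S59.TW.H324

open CongruenceSubgroup Matrix.SpecialLinearGroup ModularCurve.Period ModularForm
open Fermat.Agent.S29.H642 Fermat.Agent.S41.H761 Fermat.Agent.S59.TW.H653
open P2MW.S_ModularForm_heckeT_slash_eq_self_of_mem_Gamma0.ModularForm.HeckeSlashInvariance
open scoped MatrixGroups

variable {M : ℕ} {K : Subgroup SL(2, ℤ)} {A : Type*} [AddCommGroup A]

/-! ## The integral representatives of `T_ℓ` and `U_q` -/

/-- The integral matrices of `repsU q`. -/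
def repMatU (q : ℕ) (j : ZMod q) : Matrix (Fin 2) (Fin 2) ℤ := !![1, (j.val : ℤ); 0, (q : ℤ)]

/-- The integral matrices of `repsT M ℓ`. -/
def repMatT (M ℓ : ℕ) (x : OnePoint (ZMod ℓ)) : Matrix (Fin 2) (Fin 2) ℤ :=
  x.elim !![Int.gcdA ℓ M * ℓ, -Int.gcdB ℓ M; (M : ℤ) * ℓ, (ℓ : ℤ)] (repMatU ℓ)

@[simp] theorem repMatT_infty (M ℓ : ℕ) :
    repMatT M ℓ OnePoint.infty =
      !![Int.gcdA ℓ M * ℓ, -Int.gcdB ℓ M; (M : ℤ) * ℓ, (ℓ : ℤ)] := rfl

@[simp] theorem repMatT_coe (M ℓ : ℕ) (j : ZMod ℓ) :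
    repMatT M ℓ (j : OnePoint (ZMod ℓ)) = repMatU ℓ j := rfl

theorem isIntMat_repsU {q : ℕ} (hq : q ≠ 0) (j : ZMod q) : IsIntMat (repsU q j) (repMatU q j) := by
  intro i k
  unfold repsU repMatU
  rw [val_heckeMatrix hq]
  fin_cases i <;> fin_cases k <;> simp

theorem det_repMatU (q : ℕ) (j : ZMod q) : (repMatU q j).det = q := by
  rw [repMatU, Matrix.det_fin_two_of]
  ring

theorem isIntMat_repsT {ℓ : ℕ} [Fact ℓ.Prime] (hℓ : ¬ ℓ ∣ M) (x : OnePoint (ZMod ℓ)) :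
    IsIntMat (repsT M ℓ x) (repMatT M ℓ x) := by
  have hp : ℓ ≠ 0 := (Fact.out : ℓ.Prime).ne_zero
  induction x using OnePoint.rec with
  | coe j => exact isIntMat_repsU hp j
  | infty =>
    have hcop : Nat.Coprime ℓ M := (Nat.Prime.coprime_iff_not_dvd Fact.out).mpr hℓ
    obtain ⟨s00, s01, s10, s11, hs⟩ := sigma_spec hcop
    intro i j
    rw [repsT_infty, repMatT_infty]
    fin_cases i <;> fin_cases j <;>
      simp only [coe_mul_apply, coe_ιN_apply, val_heckeDiagMatrix hp, Matrix.of_apply,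
        Matrix.cons_val', Matrix.cons_val_zero, Matrix.cons_val_one, Matrix.cons_val_fin_one,
        Fin.zero_eta, Fin.mk_one, s00, s01, s10, s11] <;>
      push_cast <;> ring

theorem det_repMatT {ℓ : ℕ} [Fact ℓ.Prime] (hℓ : ¬ ℓ ∣ M) (x : OnePoint (ZMod ℓ)) :
    (repMatT M ℓ x).det = ℓ := by
  induction x using OnePoint.rec with
  | coe j => exact det_repMatU ℓ j
  | infty =>
    have hcop : Nat.Coprime ℓ M := (Nat.Prime.coprime_iff_not_dvd Fact.out).mpr hℓ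
    obtain ⟨-, -, -, -, hs⟩ := sigma_spec hcop
    rw [repMatT_infty, Matrix.det_fin_two_of]
    linear_combination (ℓ : ℤ) * hs

/-! ## Reduction of a parabolic element to the `unip (d M) a c` -/

theorem trace_sq_unipK (hK : IsMid M K) (t a c : ℤ) (ht : (M : ℤ) ∣ t) :
    (((unipK hK t a c ht : K) : SL(2, ℤ)) : Matrix (Fin 2) (Fin 2) ℤ).trace ^ 2 = 4 := by
  rw [coe_unipK, trace_unip]
  norm_num

/-- Two classes with values in a torsion-free group which agree on the `unip (d M) a c`,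
`(a, c)` coprime, agree on all `γ` with `(tr γ)² = 4`. -/
theorem eq_on_parabolic [NeZero M] [IsAddTorsionFree A] (hK : IsMid M K) (d : ℕ) (hd : d ≠ 0)
    (ψ χ : Additive K →+ A)
    (H : ∀ a c : ℤ, IsCoprime a c →
      ψ (Additive.ofMul (unipK hK ((d : ℤ) * M) a c (Dvd.intro_left _ rfl))) =
        χ (Additive.ofMul (unipK hK ((d : ℤ) * M) a c (Dvd.intro_left _ rfl))))
    (γ : K) (hγ : ((γ : SL(2, ℤ)) : Matrix (Fin 2) (Fin 2) ℤ).trace ^ 2 = 4) :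
    ψ (Additive.ofMul γ) = χ (Additive.ofMul γ) := by
  obtain ⟨t, a, c, hac, e⟩ := exists_unip_of_trace_two (sq_trace_two hγ)
  have hN : 2 * (d * M) ≠ 0 :=
    mul_ne_zero two_ne_zero (mul_ne_zero hd (NeZero.ne M))
  have key : γ ^ (2 * (d * M)) = unipK hK ((d : ℤ) * M) a c (Dvd.intro_left _ rfl) ^ t := by
    apply Subtype.ext
    rw [Subgroup.coe_pow, Subgroup.coe_zpow, coe_unipK, pow_mul, e, ← unip_nsmul, ← unip_zsmul]
    congr 1
    push_cast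
    ring
  have h1 : ∀ ξ : Additive K →+ A, (2 * (d * M)) • ξ (Additive.ofMul γ) =
      t • ξ (Additive.ofMul (unipK hK ((d : ℤ) * M) a c (Dvd.intro_left _ rfl))) := by
    intro ξ
    rw [← map_nsmul, ← ofMul_pow, key, ofMul_zpow, map_zsmul]
  have h2 : (2 * (d * M)) • ψ (Additive.ofMul γ) = (2 * (d * M)) • χ (Additive.ofMul γ) := by
    rw [h1 ψ, h1 χ, H a c hac]
  exact nsmul_right_injective hN h2

/-! ## `T_ℓ` and `U_q` preserve the classes which vanish on the parabolic elements -/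

theorem transfer_parabolic [NeZero M] [IsAddTorsionFree A] (hK : IsMid M K) {I : Type*}
    [Fintype I] {ρ : I → GL (Fin 2) ℝ} (h : IsCosetSystem (ιK K) (ιK K) ρ)
    (m : I → Matrix (Fin 2) (Fin 2) ℤ) (hm : ∀ i, IsIntMat (ρ i) (m i)) (d : ℕ) (hd0 : d ≠ 0)
    (hd : ∀ i, (m i).det = d) (φ : Additive K →+ A) (hφ : IsParabolicHom K φ) :
    IsParabolicHom K (h.transfer φ) := by
  intro γ hγ
  have := eq_on_parabolic hK d hd0 (h.transfer φ) 0 (fun a c _ => ?_) γ hγ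
  · rw [this]
    rfl
  · rw [transfer_unipK hK h m hm d hd φ a c, AddMonoidHom.zero_apply]
    refine Finset.sum_eq_zero fun i _ => ?_
    exact hφ _ (trace_sq_unipK hK _ _ _ _)

/-- `T_ℓ` (`ℓ ∤ M`) preserves the parabolic classes (`A` torsion-free). -/
theorem TK_parabolic [NeZero M] [IsAddTorsionFree A] (hK : IsMid M K) {ℓ : ℕ} [Fact ℓ.Prime]
    (hℓ : ¬ ℓ ∣ M) (φ : Additive K →+ A) (hφ : IsParabolicHom K φ) :
    IsParabolicHom K (TK M K ℓ φ) := by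
  rw [TK_eq hK hℓ]
  exact transfer_parabolic hK _ (repMatT M ℓ) (isIntMat_repsT hℓ) ℓ
    (Fact.out : ℓ.Prime).ne_zero (det_repMatT hℓ) φ hφ

/-- `U_q` (`q ∣ M`) preserves the parabolic classes (`A` torsion-free). -/
theorem UK_parabolic [NeZero M] [IsAddTorsionFree A] (hK : IsMid M K) {q : ℕ} [Fact q.Prime]
    (hq : q ∣ M) (φ : Additive K →+ A) (hφ : IsParabolicHom K φ) :
    IsParabolicHom K (UK K q φ) := by
  rw [UK_eq hK hq]
  exact transfer_parabolic hK _ (repMatU q) (isIntMat_repsU (Fact.out : q.Prime).ne_zero) q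
    (Fact.out : q.Prime).ne_zero (det_repMatU q) φ hφ

/-! ## The boundary is Eisenstein: `ℓ ≡ 1` mod `M` -/

/-- For `m ≡ [[1, b], [0, 1]]` mod `M` of prime determinant `ℓ ≡ 1` mod `M`:
`bdry φ (m v) = ℓ² • bdry φ v` if `ℓ ∣ m v`, and `bdry φ (m v) = bdry φ v` otherwise. -/
theorem bdry_mul_vec (hK : IsMid M K) (φ : Additive K →+ A) {ℓ : ℕ} (hℓ : ℓ.Prime)
    (h1 : (M : ℤ) ∣ (ℓ : ℤ) - 1) (m : Matrix (Fin 2) (Fin 2) ℤ) (hm : m.det = ℓ)
    (h00 : (M : ℤ) ∣ m 0 0 - 1) (h10 : (M : ℤ) ∣ m 1 0) {a c : ℤ} (hac : IsCoprime a c) :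
    bdry hK φ (m 0 0 * a + m 0 1 * c) (m 1 0 * a + m 1 1 * c) =
      (open scoped Classical in
        if (ℓ : ℤ) ∣ m 0 0 * a + m 0 1 * c ∧ (ℓ : ℤ) ∣ m 1 0 * a + m 1 1 * c then (ℓ : ℤ) ^ 2
        else 1) • bdry hK φ a c := by
  classical
  have h11 : (M : ℤ) ∣ m 1 1 - 1 := by
    -- `m 0 0 * m 1 1 - m 0 1 * m 1 0 = ℓ`
    rw [Matrix.det_fin_two] at hm
    obtain ⟨u, hu⟩ := h00
    obtain ⟨w, hw⟩ := h10
    obtain ⟨z, hz⟩ := h1
    refine ⟨z - u * m 1 1 + m 0 1 * w, ?_⟩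
    have e00 : m 0 0 = 1 + M * u := by linarith
    rw [e00, hw] at hm
    linear_combination hm + hz
  have hsh : IsCoprime (a + m 0 1 * c) c := by
    exact hac.add_mul_right_left (m 0 1)
  rcases content_cases hℓ m hm hac with ⟨a', c', hac', e1, e2⟩ | ⟨hnd, hcop⟩
  · have hdiv : (ℓ : ℤ) ∣ m 0 0 * a + m 0 1 * c ∧ (ℓ : ℤ) ∣ m 1 0 * a + m 1 1 * c :=
      ⟨⟨a', e1⟩, ⟨c', e2⟩⟩
    rw [if_pos hdiv, e1, e2, bdry_smul_vec, ← bdry_shear hK φ (m 0 1) a c]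
    congr 1
    apply bdry_congr hK φ hsh hac'
    · obtain ⟨u, hu⟩ := h00
      obtain ⟨z, hz⟩ := h1
      refine ⟨u * a - z * a', ?_⟩
      linear_combination -e1 + a * hu - a' * hz
    · obtain ⟨u, hu⟩ := h11
      obtain ⟨w, hw⟩ := h10
      obtain ⟨z, hz⟩ := h1
      refine ⟨w * a + u * c - z * c', ?_⟩
      linear_combination -e2 + a * hw + c * hu - c' * hz
  · rw [if_neg hnd, one_smul, ← bdry_shear hK φ (m 0 1) a c]
    apply bdry_congr hK φ hsh hcop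
    · obtain ⟨u, hu⟩ := h00
      refine ⟨u * a, ?_⟩
      linear_combination a * hu
    · obtain ⟨u, hu⟩ := h11
      obtain ⟨w, hw⟩ := h10
      refine ⟨w * a + u * c, ?_⟩
      linear_combination a * hw + c * hu

/-- Exactly one representative of `T_ℓ` maps the coprime vector `(a, c)` into `ℓ ℤ²`. -/
theorem exists_unique_dvd {ℓ : ℕ} [Fact ℓ.Prime] (hℓ : ¬ ℓ ∣ M) {a c : ℤ} (hac : IsCoprime a c) :
    ∃ i₀ : OnePoint (ZMod ℓ), ∀ i : OnePoint (ZMod ℓ),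
      ((ℓ : ℤ) ∣ repMatT M ℓ i 0 0 * a + repMatT M ℓ i 0 1 * c ∧
        (ℓ : ℤ) ∣ repMatT M ℓ i 1 0 * a + repMatT M ℓ i 1 1 * c) ↔ i = i₀ := by
  have hp : ℓ.Prime := Fact.out
  have hcopM : Nat.Coprime ℓ M := (Nat.Prime.coprime_iff_not_dvd hp).mpr hℓ
  obtain ⟨-, -, -, -, hs⟩ := sigma_spec hcopM
  -- the two divisibilities, in `ZMod ℓ`
  have hfin : ∀ j : ZMod ℓ,
      ((ℓ : ℤ) ∣ repMatT M ℓ (j : OnePoint (ZMod ℓ)) 0 0 * a +
          repMatT M ℓ (j : OnePoint (ZMod ℓ)) 0 1 * c ∧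
        (ℓ : ℤ) ∣ repMatT M ℓ (j : OnePoint (ZMod ℓ)) 1 0 * a +
          repMatT M ℓ (j : OnePoint (ZMod ℓ)) 1 1 * c) ↔ (a : ZMod ℓ) + j * c = 0 := by
    intro j
    have e00 : repMatT M ℓ (j : OnePoint (ZMod ℓ)) 0 0 = 1 := rfl
    have e01 : repMatT M ℓ (j : OnePoint (ZMod ℓ)) 0 1 = (j.val : ℤ) := rfl
    have e10 : repMatT M ℓ (j : OnePoint (ZMod ℓ)) 1 0 = 0 := rfl
    have e11 : repMatT M ℓ (j : OnePoint (ZMod ℓ)) 1 1 = (ℓ : ℤ) := rfl
    rw [e00, e01, e10, e11]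
    have h2 : (ℓ : ℤ) ∣ 0 * a + (ℓ : ℤ) * c := ⟨c, by ring⟩
    rw [← ZMod.intCast_zmod_eq_zero_iff_dvd]
    constructor
    · rintro ⟨h, -⟩
      push_cast at h
      rw [ZMod.natCast_zmod_val] at h
      linear_combination h
    · intro h
      refine ⟨?_, h2⟩
      push_cast
      rw [ZMod.natCast_zmod_val]
      linear_combination h
  have hinf : ((ℓ : ℤ) ∣ repMatT M ℓ OnePoint.infty 0 0 * a + repMatT M ℓ OnePoint.infty 0 1 * c ∧
        (ℓ : ℤ) ∣ repMatT M ℓ OnePoint.infty 1 0 * a + repMatT M ℓ OnePoint.infty 1 1 * c) ↔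
      (c : ZMod ℓ) = 0 := by
    have e00 : repMatT M ℓ OnePoint.infty 0 0 = Int.gcdA ℓ M * ℓ := rfl
    have e01 : repMatT M ℓ OnePoint.infty 0 1 = -Int.gcdB ℓ M := rfl
    have e10 : repMatT M ℓ OnePoint.infty 1 0 = (M : ℤ) * ℓ := rfl
    have e11 : repMatT M ℓ OnePoint.infty 1 1 = (ℓ : ℤ) := rfl
    rw [e00, e01, e10, e11]
    have h2 : (ℓ : ℤ) ∣ (M : ℤ) * ℓ * a + (ℓ : ℤ) * c := ⟨M * a + c, by ring⟩
    have hs' : ((Int.gcdB ℓ M : ℤ) : ZMod ℓ) * (M : ZMod ℓ) = 1 := by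
      have := congrArg (Int.cast : ℤ → ZMod ℓ) hs
      push_cast at this
      rw [ZMod.natCast_self, mul_zero, zero_add] at this
      exact this
    rw [← ZMod.intCast_zmod_eq_zero_iff_dvd]
    constructor
    · rintro ⟨h, -⟩
      push_cast at h
      rw [ZMod.natCast_self, mul_zero, zero_mul, zero_add] at h
      have : (c : ZMod ℓ) = ((Int.gcdB ℓ M : ℤ) : ZMod ℓ) * (M : ZMod ℓ) * c := by
        rw [hs', one_mul]
      rw [this]
      linear_combination (-(M : ZMod ℓ)) * h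
    · intro h
      refine ⟨?_, h2⟩
      push_cast
      rw [ZMod.natCast_self, mul_zero, zero_mul, zero_add, h, mul_zero]
  by_cases hc : (c : ZMod ℓ) = 0
  · refine ⟨OnePoint.infty, fun i => ?_⟩
    induction i using OnePoint.rec with
    | infty => exact ⟨fun _ => rfl, fun _ => hinf.mpr hc⟩
    | coe j =>
      rw [hfin j]
      constructor
      · intro h
        exfalso
        rw [hc, mul_zero, add_zero] at h
        have ha : (ℓ : ℤ) ∣ a := (ZMod.intCast_zmod_eq_zero_iff_dvd a ℓ).mp h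
        have hc' : (ℓ : ℤ) ∣ c := (ZMod.intCast_zmod_eq_zero_iff_dvd c ℓ).mp hc
        have h1 : IsUnit (ℓ : ℤ) := hac.isUnit_of_dvd' ha hc'
        have h2 : ((ℓ : ℤ)).natAbs = 1 := Int.isUnit_iff_natAbs_eq.mp h1
        rw [Int.natAbs_natCast] at h2
        exact hp.one_lt.ne' h2
      · intro h
        exact absurd h (OnePoint.coe_ne_infty j)
  · refine ⟨((-(a : ZMod ℓ) * (c : ZMod ℓ)⁻¹ : ZMod ℓ) : OnePoint (ZMod ℓ)), fun i => ?_⟩
    induction i using OnePoint.rec with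
    | infty =>
      constructor
      · intro h
        exact absurd (hinf.mp h) hc
      · intro h
        exact absurd h.symm (OnePoint.coe_ne_infty _)
    | coe j =>
      rw [hfin j, OnePoint.coe_eq_coe]
      constructor
      · intro h
        field_simp
        linear_combination h
      · intro h
        rw [h]
        field_simp
        ring

theorem dvd_repMatT_sub_one {ℓ : ℕ} [Fact ℓ.Prime] (hℓ : ¬ ℓ ∣ M) (i : OnePoint (ZMod ℓ)) :
    (M : ℤ) ∣ repMatT M ℓ i 0 0 - 1 ∧ (M : ℤ) ∣ repMatT M ℓ i 1 0 := by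
  induction i using OnePoint.rec with
  | coe j =>
    have e00 : repMatT M ℓ (j : OnePoint (ZMod ℓ)) 0 0 = 1 := rfl
    have e10 : repMatT M ℓ (j : OnePoint (ZMod ℓ)) 1 0 = 0 := rfl
    rw [e00, e10]
    exact ⟨by simp, dvd_zero _⟩
  | infty =>
    have hcopM : Nat.Coprime ℓ M :=
      (Nat.Prime.coprime_iff_not_dvd (Fact.out : ℓ.Prime)).mpr hℓ
    obtain ⟨-, -, -, -, hs⟩ := sigma_spec hcopM
    have e00 : repMatT M ℓ OnePoint.infty 0 0 = Int.gcdA ℓ M * ℓ := rfl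
    have e10 : repMatT M ℓ OnePoint.infty 1 0 = (M : ℤ) * ℓ := rfl
    rw [e00, e10]
    exact ⟨⟨-Int.gcdB ℓ M, by linear_combination hs⟩, Dvd.intro _ rfl⟩

/-- **`T_ℓ` on the unipotent elements**, `ℓ ≡ 1` mod `M`:
`(T_ℓ φ)(unip (ℓ M) v) = (ℓ + 1) • φ (unip (ℓ M) v)` for coprime `v`. -/
theorem TK_apply_unipK (hK : IsMid M K) {ℓ : ℕ} [Fact ℓ.Prime] (hℓ : ¬ ℓ ∣ M)
    (h1 : (M : ℤ) ∣ (ℓ : ℤ) - 1) (φ : Additive K →+ A) {a c : ℤ} (hac : IsCoprime a c) :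
    TK M K ℓ φ (Additive.ofMul (unipK hK ((ℓ : ℤ) * M) a c (Dvd.intro_left _ rfl))) =
      ((ℓ : ℤ) + 1) • φ (Additive.ofMul (unipK hK ((ℓ : ℤ) * M) a c (Dvd.intro_left _ rfl))) := by
  classical
  have hp : ℓ.Prime := Fact.out
  rw [TK_eq hK hℓ, transfer_unipK hK (repsT_system hK hℓ) (repMatT M ℓ) (isIntMat_repsT hℓ) ℓ
    (det_repMatT hℓ) φ a c, apply_unipK hK φ (ℓ : ℤ) a c]
  obtain ⟨i₀, hi₀⟩ := exists_unique_dvd hℓ hac
  have hterm : ∀ i : OnePoint (ZMod ℓ),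
      bdry hK φ (repMatT M ℓ i 0 0 * a + repMatT M ℓ i 0 1 * c)
          (repMatT M ℓ i 1 0 * a + repMatT M ℓ i 1 1 * c) =
        bdry hK φ a c + (if i = i₀ then ((ℓ : ℤ) ^ 2 - 1) • bdry hK φ a c else 0) := by
    intro i
    rw [bdry_mul_vec hK φ hp h1 (repMatT M ℓ i) (det_repMatT hℓ i)
      (dvd_repMatT_sub_one hℓ i).1 (dvd_repMatT_sub_one hℓ i).2 hac]
    by_cases hi : i = i₀
    · rw [if_pos ((hi₀ i).mpr hi), if_pos hi, sub_smul, one_smul]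
      abel
    · rw [if_neg (fun h => hi ((hi₀ i).mp h)), if_neg hi, one_smul, add_zero]
  rw [Finset.sum_congr rfl (fun i _ => hterm i), Finset.sum_add_distrib, Finset.sum_const,
    Finset.sum_ite_eq' Finset.univ i₀, if_pos (Finset.mem_univ _), Finset.card_univ]
  have hcard : Fintype.card (OnePoint (ZMod ℓ)) = ℓ + 1 := by
    have h : Fintype.card (OnePoint (ZMod ℓ)) = Fintype.card (Option (ZMod ℓ)) := rfl
    rw [h, Fintype.card_option, ZMod.card]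
  rw [hcard, ← natCast_zsmul, ← add_smul, smul_smul]
  congr 1
  push_cast
  ring

/-- **The boundary is Eisenstein.**  For `Γ₁(M) ≤ K ≤ Γ₀(M)`, a prime `ℓ ≡ 1` mod `M` and a
torsion-free `A`: `(T_ℓ φ)(γ) = (ℓ + 1) • φ(γ)` for every `γ ∈ K` with `(tr γ)² = 4`. -/
theorem TK_apply_parabolic [NeZero M] [IsAddTorsionFree A] (hK : IsMid M K) {ℓ : ℕ}
    [Fact ℓ.Prime] (hℓ : ¬ ℓ ∣ M) (h1 : (M : ℤ) ∣ (ℓ : ℤ) - 1) (φ : Additive K →+ A) (γ : K)
    (hγ : ((γ : SL(2, ℤ)) : Matrix (Fin 2) (Fin 2) ℤ).trace ^ 2 = 4) :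
    TK M K ℓ φ (Additive.ofMul γ) = ((ℓ : ℤ) + 1) • φ (Additive.ofMul γ) := by
  have := eq_on_parabolic hK ℓ (Fact.out : ℓ.Prime).ne_zero (TK M K ℓ φ) (((ℓ : ℤ) + 1) • φ)
    (fun a c hac => ?_) γ hγ
  · rw [this]
    rfl
  · rw [TK_apply_unipK hK hℓ h1 φ hac]
    rfl

end Fermat.Agent.S59.TW.H324
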