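import Mathlib
import Fermat.Agent.S59.TW.H324.BoundaryEis

/-!
# S59 / cell TW, leaf CUSP (helper324): a non-Eisenstein localisation of `Hom(K, 𝒪)` is cuspidal

* `isCuspidalK_of_parabolic` : for torsion-free `A`, a class vanishing on the `γ` with
  `(tr γ)² = 4` is cuspidal (`H653.IsCuspidalK`);
* `TK_cuspidal`, `UK_cuspidal`, `diamond_cuspidal`, `diamondU_cuspidal` : the operators preserve
  the cuspidal classes;
* `finite_hom` : `Hom(K, 𝒪)` is a finite `𝒪`-module;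
* `cuspidal_of_nilp` : **CUSP-LOC.**  If `V ⊆ Hom(K, 𝒪)` is the image of a projector commuting
  with `T_ℓ`, `(T_ℓ - c)^m V ⊆ 𝔪 Hom(K, 𝒪)`, `ℓ ≡ 1` mod `M` and `c - (ℓ + 1)` is a unit, then
  every element of `V` is cuspidal.
-/

set_option autoImplicit false

namespace Fermat.Agent.S59.TW.H324

open CongruenceSubgroup Matrix.SpecialLinearGroup ModularCurve.Period ModularForm IsLocalRing
open Fermat.Agent.S29.H642 Fermat.Agent.S41.H761 Fermat.Agent.S59.TW.H653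
open scoped MatrixGroups

variable {M : ℕ} {K : Subgroup SL(2, ℤ)} {A : Type*} [AddCommGroup A]

/-! ## Cuspidal classes -/

theorem isCuspidalK_of_parabolic [IsAddTorsionFree A] {φ : Additive K →+ A}
    (h : IsParabolicHom K φ) : IsCuspidalK φ := by
  refine ⟨h, fun γ hγ => ?_⟩
  obtain ⟨n, hn, e⟩ := hγ.exists_pow_eq_one
  have h1 : n • φ (Additive.ofMul γ) = n • (0 : A) := by
    rw [← map_nsmul, ← ofMul_pow, e, ofMul_one, map_zero, nsmul_zero]
  exact nsmul_right_injective hn.ne' h1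

theorem TK_cuspidal [NeZero M] [IsAddTorsionFree A] (hK : IsMid M K) {ℓ : ℕ} [Fact ℓ.Prime]
    (hℓ : ¬ ℓ ∣ M) {φ : Additive K →+ A} (hφ : IsCuspidalK φ) : IsCuspidalK (TK M K ℓ φ) :=
  isCuspidalK_of_parabolic (TK_parabolic hK hℓ φ hφ.1)

theorem UK_cuspidal [NeZero M] [IsAddTorsionFree A] (hK : IsMid M K) {q : ℕ} [Fact q.Prime]
    (hq : q ∣ M) {φ : Additive K →+ A} (hφ : IsCuspidalK φ) : IsCuspidalK (UK K q φ) :=
  isCuspidalK_of_parabolic (UK_parabolic hK hq φ hφ.1)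

theorem trace_conj (g k : SL(2, ℤ)) :
    ((g * k * g⁻¹ : SL(2, ℤ)) : Matrix (Fin 2) (Fin 2) ℤ).trace =
      ((k : SL(2, ℤ)) : Matrix (Fin 2) (Fin 2) ℤ).trace := by
  rw [Matrix.SpecialLinearGroup.coe_mul, Matrix.trace_mul_comm, ← Matrix.SpecialLinearGroup.coe_mul,
    inv_mul_cancel_left]

/-- The diamond operators preserve the cuspidal classes (any `A`). -/
theorem diamond_cuspidal (hK : IsMid M K) (g : Gamma0 M) {φ : Additive K →+ A}
    (hφ : IsCuspidalK φ) : IsCuspidalK (diamond hK g φ) := by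
  refine ⟨fun γ hγ => ?_, fun γ hγ => ?_⟩
  · rw [diamond_apply]
    apply hφ.1
    rw [conjK_coe, trace_conj]
    exact hγ
  · rw [diamond_apply]
    apply hφ.2
    have hinj : Function.Injective ((conjK hK g).toMonoidHom : K →* K) := (conjK hK g).injective
    exact hinj.isOfFinOrder_iff.mpr hγ

theorem diamondU_cuspidal (hK : IsMid M K) (u : (ZMod M)ˣ) {φ : Additive K →+ A}
    (hφ : IsCuspidalK φ) : IsCuspidalK (diamondU hK u φ) :=
  diamond_cuspidal hK _ hφ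

/-! ## Finiteness of `Hom(K, 𝒪)` -/

theorem fg_of_isMid [NeZero M] (hK : IsMid M K) : Group.FG K := by
  have hG : Group.FG SL(2, ℤ) :=
    Group.fg_iff.mpr ⟨{ModularGroup.S, ModularGroup.T}, SpecialLinearGroup.SL2Z_generators,
      Set.toFinite _⟩
  have : K.FiniteIndex := Subgroup.finiteIndex_of_le hK.ge
  exact Subgroup.fg_of_index_ne_zero K

theorem finite_hom [NeZero M] (hK : IsMid M K) (𝒪 : Type*) [CommRing 𝒪] [IsNoetherianRing 𝒪] :
    Module.Finite 𝒪 (Additive K →+ 𝒪) := by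
  obtain ⟨s, hs, hfin⟩ := Group.fg_iff.mp (fg_of_isMid hK)
  have : Finite s := hfin
  let E : (Additive K →+ 𝒪) →ₗ[𝒪] (s → 𝒪) :=
    { toFun := fun φ γ => φ (Additive.ofMul γ.1)
      map_add' := fun _ _ => rfl
      map_smul' := fun _ _ => rfl }
  refine Module.Finite.of_injective E ?_
  rw [← LinearMap.ker_eq_bot, LinearMap.ker_eq_bot']
  intro φ hφ
  have key : ∀ γ : K, φ (Additive.ofMul γ) = 0 := by
    intro γ
    have hγ : γ ∈ Subgroup.closure s := by rw [hs]; trivial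
    induction hγ using Subgroup.closure_induction with
    | mem x hx => exact congrFun hφ ⟨x, hx⟩
    | one => exact map_zero φ
    | mul x y _ _ hx hy =>
      rw [ofMul_mul, map_add, hx, hy, add_zero]
    | inv x _ hx =>
      rw [ofMul_inv, map_neg, hx, neg_zero]
  ext γ
  exact key (Additive.toMul γ)

/-! ## `T_ℓ` as an `𝒪`-linear map -/

section Lin

variable {𝒪 : Type*} [CommRing 𝒪]

theorem TK_smul (hK : IsMid M K) {ℓ : ℕ} [Fact ℓ.Prime] (hℓ : ¬ ℓ ∣ M) (c : 𝒪)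
    (φ : Additive K →+ 𝒪) : TK M K ℓ (c • φ) = c • TK M K ℓ φ := by
  have e : ∀ ψ : Additive K →+ 𝒪, c • ψ = (AddMonoidHom.mulLeft c).comp ψ := fun ψ => rfl
  rw [e, e, TK_comp hK hℓ]

/-- `T_ℓ` as an `𝒪`-linear endomorphism of `Hom(K, 𝒪)`. -/
noncomputable def TKLin (hK : IsMid M K) (𝒪 : Type*) [CommRing 𝒪] {ℓ : ℕ} [Fact ℓ.Prime]
    (hℓ : ¬ ℓ ∣ M) : Module.End 𝒪 (Additive K →+ 𝒪) where
  toFun := TK M K ℓ
  map_add' := TK_add hK hℓ
  map_smul' := TK_smul hK hℓ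

@[simp] theorem TKLin_apply (hK : IsMid M K) {ℓ : ℕ} [Fact ℓ.Prime] (hℓ : ¬ ℓ ∣ M)
    (φ : Additive K →+ 𝒪) : TKLin hK 𝒪 hℓ φ = TK M K ℓ φ := rfl

end Lin

/-! ## CUSP-LOC -/

section Loc

variable {𝒪 : Type*} [CommRing 𝒪] [IsDomain 𝒪] [CharZero 𝒪] [IsLocalRing 𝒪] [IsNoetherianRing 𝒪]

/-- **CUSP-LOC.**  Let `V ⊆ Hom(K, 𝒪)` be the image of a projector `e` commuting with `T_ℓ`,
for a prime `ℓ ≡ 1` mod `M`, such that `(T_ℓ - c)^m V ⊆ 𝔪 Hom(K, 𝒪)` with `c - (ℓ + 1) ∈ 𝒪ˣ`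
(a non-Eisenstein prime).  Then every element of `V` is cuspidal. -/
theorem cuspidal_of_nilp [NeZero M] (hK : IsMid M K) {ℓ : ℕ} [Fact ℓ.Prime] (hℓ : ¬ ℓ ∣ M)
    (h1 : (M : ℤ) ∣ (ℓ : ℤ) - 1) (c : 𝒪) (hc : IsUnit (c - ((ℓ : 𝒪) + 1)))
    (V : Submodule 𝒪 (Additive K →+ 𝒪))
    (e : (Additive K →+ 𝒪) →ₗ[𝒪] (Additive K →+ 𝒪))
    (he1 : ∀ x, e x ∈ V) (he2 : ∀ x ∈ V, e x = x)
    (hecomm : ∀ x, e (TK M K ℓ x) = TK M K ℓ (e x))
    (m : ℕ) (hnil : ∀ x ∈ V, (fun y => TK M K ℓ y - c • y)^[m] x ∈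
        maximalIdeal 𝒪 • (⊤ : Submodule 𝒪 (Additive K →+ 𝒪))) :
    ∀ v ∈ V, IsCuspidalK v := by
  classical
  have hfin : Module.Finite 𝒪 (Additive K →+ 𝒪) := finite_hom hK 𝒪
  have hnoeth : IsNoetherian 𝒪 (Additive K →+ 𝒪) := isNoetherian_of_isNoetherianRing_of_finite _ _
  set T : Module.End 𝒪 (Additive K →+ 𝒪) := TKLin hK 𝒪 hℓ with hT
  set D : Module.End 𝒪 (Additive K →+ 𝒪) := T - c • 1 with hD
  set S : Module.End 𝒪 (Additive K →+ 𝒪) := T - ((ℓ : 𝒪) + 1) • 1 with hS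
  have hDfun : (⇑D : (Additive K →+ 𝒪) → (Additive K →+ 𝒪)) = fun y => TK M K ℓ y - c • y := by
    funext y
    rfl
  have hVT : ∀ x ∈ V, T x ∈ V := by
    intro x hx
    have : T x = e (TK M K ℓ x) := by
      rw [hecomm, he2 x hx]
      rfl
    rw [this]
    exact he1 _
  have hVD : ∀ x ∈ V, D x ∈ V := fun x hx => V.sub_mem (hVT x hx) (V.smul_mem c hx)
  have hVpow : ∀ (k : ℕ), ∀ x ∈ V, (D ^ k) x ∈ V := by
    intro k
    induction k with
    | zero => intro x hx; simpa using hx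
    | succ k ih =>
      intro x hx
      rw [pow_succ', Module.End.mul_apply]
      exact hVD _ (ih x hx)
  have hVm : ∀ y ∈ V, y ∈ maximalIdeal 𝒪 • (⊤ : Submodule 𝒪 (Additive K →+ 𝒪)) →
      y ∈ maximalIdeal 𝒪 • V := by
    intro y hy hym
    have h2 : e y ∈ Submodule.map e (maximalIdeal 𝒪 • (⊤ : Submodule 𝒪 (Additive K →+ 𝒪))) :=
      Submodule.mem_map_of_mem hym
    rw [Submodule.map_smul'', he2 y hy] at h2
    refine Submodule.smul_mono (le_refl _) ?_ h2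
    rintro _ ⟨x, -, rfl⟩
    exact he1 x
  obtain ⟨u, hu⟩ := hc
  -- `S = D + u`
  have hSD : S = D + (u : 𝒪) • 1 := by
    rw [hS, hD, hu]
    module
  set z : Module.End 𝒪 (Additive K →+ 𝒪) := (-((u⁻¹ : 𝒪ˣ) : 𝒪)) • D with hz
  have hgeom := mul_neg_geom_sum z m
  have h1z : 1 - z = ((u⁻¹ : 𝒪ˣ) : 𝒪) • S := by
    rw [hz, hSD, smul_add, smul_smul, Units.inv_mul, one_smul]
    module
  have hzpow : ∀ k : ℕ, z ^ k = ((-((u⁻¹ : 𝒪ˣ) : 𝒪)) ^ k) • D ^ k := fun k => by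
    rw [hz, smul_pow]
  have hQV : ∀ x ∈ V, (∑ i ∈ Finset.range m, z ^ i) x ∈ V := by
    intro x hx
    rw [LinearMap.sum_apply]
    refine Submodule.sum_mem _ fun i _ => ?_
    rw [hzpow, LinearMap.smul_apply]
    exact V.smul_mem _ (hVpow i x hx)
  -- Nakayama
  have hle : V ≤ Submodule.map S V ⊔ maximalIdeal 𝒪 • V := by
    intro x hx
    have e1 : x = ((1 - z) * ∑ i ∈ Finset.range m, z ^ i) x + (z ^ m) x := by
      rw [hgeom, LinearMap.sub_apply, Module.End.one_apply, sub_add_cancel]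
    rw [e1]
    refine Submodule.add_mem_sup ?_ ?_
    · rw [h1z, Module.End.mul_apply, LinearMap.smul_apply, ← map_smul]
      exact Submodule.mem_map_of_mem (V.smul_mem _ (hQV x hx))
    · rw [hzpow, LinearMap.smul_apply]
      refine Submodule.smul_mem _ _ (hVm _ (hVpow m x hx) ?_)
      rw [Module.End.pow_apply, hDfun]
      exact hnil x hx
  have hjac : maximalIdeal 𝒪 ≤ (⊥ : Ideal 𝒪).jacobson := by
    rw [IsLocalRing.jacobson_eq_maximalIdeal ⊥ bot_ne_top]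
  have hVS : V ≤ Submodule.map S V :=
    Submodule.le_of_le_smul_of_le_jacobson_bot (IsNoetherian.noetherian V) hjac hle
  intro v hv
  obtain ⟨w, -, rfl⟩ := hVS hv
  apply isCuspidalK_of_parabolic
  intro γ hγ
  have e2 : S w = TK M K ℓ w - ((ℓ : 𝒪) + 1) • w := rfl
  rw [e2, AddMonoidHom.sub_apply, TK_apply_parabolic hK hℓ h1 w γ hγ, AddMonoidHom.smul_apply,
    zsmul_eq_mul, smul_eq_mul]
  push_cast
  ring

end Loc

end Fermat.Agent.S59.TW.H324
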