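import Mathlib
import Fermat.Agent.S59.TW.Aut.Spec
import Fermat.Agent.S59.TW.H324.CuspLoc

/-!
# S59 / cell TW, layer 3 (AUT), piece CUSP of MOD0 / MODQ (helper324)

`isLocPart_cuspidal` : a localisation `V` of `X_K(𝒪)` (`Aut.IsLocPart`, helper511) at an
eigen-system containing a non-Eisenstein pair `(ℓ, c)` — `ℓ ≡ 1` mod `M`, `c - (ℓ + 1) ∈ 𝒪ˣ` —
consists of cuspidal classes (`H653.IsCuspidalK`).
-/

set_option autoImplicit false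

namespace Fermat.Agent.S59.TW.H324

open CongruenceSubgroup IsLocalRing
open Fermat.Agent.S59.TW.H653 Fermat.Agent.S59.TW.Aut
open scoped MatrixGroups

variable {M : ℕ} {K : Subgroup SL(2, ℤ)}

/-- **CUSP for `Aut.IsLocPart`.** -/
theorem isLocPart_cuspidal [NeZero M] {𝒪 : Type} [CommRing 𝒪] [IsDomain 𝒪] [CharZero 𝒪]
    [IsLocalRing 𝒪] [IsNoetherianRing 𝒪] (hK : IsMid M K) {Tset Uset : Set (ℕ × 𝒪)}
    {V : Submodule 𝒪 (Additive K →+ 𝒪)} (hV : IsLocPart hK Tset Uset V)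
    {ℓ : ℕ} [Fact ℓ.Prime] (hℓ : ¬ ℓ ∣ M) (h1 : (M : ℤ) ∣ (ℓ : ℤ) - 1) {c : 𝒪}
    (hmem : (ℓ, c) ∈ Tset) (hc : IsUnit (c - ((ℓ : 𝒪) + 1))) :
    ∀ v ∈ V, IsCuspidalK v := by
  obtain ⟨e, -, he1, he2, heT, -, -, -⟩ := hV.exists_proj
  obtain ⟨m, hm⟩ := hV.nilp_T ℓ c hmem
  exact cuspidal_of_nilp hK hℓ h1 c hc V e he1 he2 (heT ℓ hℓ) m hm

/-- The same, with the congruence `ℓ ≡ 1 [MOD M]` in `ℕ`. -/
theorem isLocPart_cuspidal' [NeZero M] {𝒪 : Type} [CommRing 𝒪] [IsDomain 𝒪] [CharZero 𝒪]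
    [IsLocalRing 𝒪] [IsNoetherianRing 𝒪] (hK : IsMid M K) {Tset Uset : Set (ℕ × 𝒪)}
    {V : Submodule 𝒪 (Additive K →+ 𝒪)} (hV : IsLocPart hK Tset Uset V)
    {ℓ : ℕ} [Fact ℓ.Prime] (hℓ : ¬ ℓ ∣ M) (h1 : ℓ ≡ 1 [MOD M]) {c : 𝒪}
    (hmem : (ℓ, c) ∈ Tset) (hc : IsUnit (c - ((ℓ : 𝒪) + 1))) :
    ∀ v ∈ V, IsCuspidalK v := by
  refine isLocPart_cuspidal hK hV hℓ ?_ hmem hc
  have := (Nat.modEq_iff_dvd.mp h1.symm)
  simpa using this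

end Fermat.Agent.S59.TW.H324
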