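import Mathlib
import Fermat.Agent.S59.TW.H324.CuspLocPart
import Fermat.Agent.S59.H155.RFD
import Fermat.Agent.S59.H950.NEPrimeK
import Fermat.Agent.S59.Arch.WilesLevel

/-!
# S59 / cell TW, layer 3 (AUT), leaf CUSP-MIN (helper324)

`cuspMin` is the body of `Aut.H959.CuspMinStatement` (helper959, `TW/Aut/H959/SkelM.lean`),
verbatim: the localisation `V₀` of `X_{Γ₀(N₀)}(𝒪)` at the maximal ideal of the minimal package
consists of cuspidal classes.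

Proof: `H155.resFrobOfDatum` (the character `θ` of the package is the Frobenius character of
`ρ̄`), `H950.nePrimeK` (a prime `ℓ ∉ Smin`, `ℓ ≡ 1` mod `N₀`, `θ(T_ℓ) ≠ ℓ + 1`),
`isLocPart_cuspidal'` (the boundary is Eisenstein).

`exists_nePrime` is the non-Eisenstein prime for a package of any type `Σ` and any modulus `m`.
-/

set_option autoImplicit false

open Polynomial IsLocalRing CongruenceSubgroup
open scoped MatrixGroups

namespace Fermat.Agent.S59.TW.H324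

open Fermat.Agent.S59.Arch Fermat.Agent.S59.TW.H959 Fermat.Agent.S59.TW.H653
open Fermat.Agent.S59.TW.Aut
open Fermat.Agent.S29.H642 Fermat.Agent.S41.Spec

/-- **A non-Eisenstein prime of a package.**  For every `m > 0` and every finite set `S'` there
are a prime `ℓ ∉ Σ ∪ S'`, `ℓ ≡ 1` mod `m`, and a lift `c ∈ 𝒪` of `θ(T_ℓ)` with
`c - (ℓ + 1) ∈ 𝒪ˣ`. -/
theorem exists_nePrime (p : ℕ) [Fact p.Prime]
    (𝒪 : Type) [CommRing 𝒪] [IsDomain 𝒪] [IsDiscreteValuationRing 𝒪]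
    [IsAdicComplete (maximalIdeal 𝒪) 𝒪] [Finite (ResidueField 𝒪)]
    (ρbar : ResidualGaloisRep (ResidueField 𝒪)) (Smin : Finset ℕ)
    (h : ResidualHyp p 𝒪 ρbar Smin) (t : PType) (Sig : Finset ℕ) (hsub : Smin ⊆ Sig)
    (hSig : ∀ q ∈ Sig, q.Prime)
    [NeZero (wilesLevel p t Smin Sig)]
    (P : HeckePkg p 𝒪 ρbar t Smin Sig) (m : ℕ) (hm : 0 < m) (S' : Finset ℕ) :
    ∃ (ℓ : ℕ) (hℓ : ℓ.Prime) (hℓN : ¬ ℓ ∣ wilesLevel p t Smin Sig)
      (hℓS : ℓ ∉ (↑Sig : Set ℕ)) (c : 𝒪), ℓ ∉ S' ∧ ℓ ≡ 1 [MOD m] ∧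
      residue 𝒪 c = P.θ (CuspForm.heckeAlgebra.T hℓ hℓN hℓS) ∧
      IsUnit (c - ((ℓ : 𝒪) + 1)) := by
  classical
  have hp : p.Prime := Fact.out
  have : CharP (ResidueField 𝒪) p := by
    rw [CharP.charP_iff_prime_eq_zero hp]
    have : residue 𝒪 (p : 𝒪) = 0 := (residue_eq_zero_iff _).mpr h.hp𝒪
    rwa [map_natCast] at this
  have hRF : G4.ResFrobCond ρbar P.θ :=
    H155.resFrobOfDatum (wilesLevel p t Smin Sig) (↑Sig : Set ℕ) 𝒪 ρbar P.θ P.T P.H P.hres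
  have hdvd : ∀ l : ℕ, l.Prime → l ∉ Sig → ¬ l ∣ wilesLevel p t Smin Sig := fun l hl hlS hd =>
    hlS (mem_of_prime_dvd_wilesLevel hp h.hSmin hSig h.hpSmin hsub l hl hd)
  set a : ℕ → ResidueField 𝒪 := fun l =>
    if hl : l.Prime ∧ l ∉ Sig then
      P.θ (CuspForm.heckeAlgebra.T hl.1 (hdvd l hl.1 hl.2) (by simpa using hl.2))
    else 0 with ha
  have hq2 : (2 : ℕ) ≠ p := fun e => h.hp2 e.symm
  obtain ⟨ℓ, hℓ, hℓS, hℓS', hℓm, -, hne, -⟩ :=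
    H950.nePrimeK p h.hp2 (ResidueField 𝒪) ρbar h.habs h.hsplit Sig (hsub h.hpSmin) a
      (fun l hl hlS B hB σ hσ => by
        have := hRF l hl (hdvd l hl hlS) (by simpa using hlS) B hB σ hσ
        rw [this, ha]
        simp only [dif_pos (show l.Prime ∧ l ∉ Sig from ⟨hl, hlS⟩)])
      2 Nat.prime_two hq2 m hm S'
  obtain ⟨c, hc⟩ := residue_surjective
    (P.θ (CuspForm.heckeAlgebra.T hℓ (hdvd ℓ hℓ hℓS) (by simpa using hℓS)))
  refine ⟨ℓ, hℓ, hdvd ℓ hℓ hℓS, by simpa using hℓS, c, hℓS', hℓm, hc, ?_⟩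
  have hal : a ℓ = residue 𝒪 c := by
    rw [ha, hc]
    simp only [dif_pos (show ℓ.Prime ∧ ℓ ∉ Sig from ⟨hℓ, hℓS⟩)]
  rw [← IsLocalRing.notMem_maximalIdeal, ← residue_eq_zero_iff]
  intro h0
  apply hne
  rw [hal]
  have : residue 𝒪 (c - ((ℓ : 𝒪) + 1)) = residue 𝒪 c - ((ℓ : ResidueField 𝒪) + 1) := by
    rw [map_sub, map_add, map_natCast, map_one]
  rw [this] at h0
  exact sub_eq_zero.mp h0

/-- **CUSP at the minimal level** — verbatim the body of `Aut.H959.CuspMinStatement`. -/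
theorem cuspMin :
    ∀ (p : ℕ) [Fact p.Prime]
      (𝒪 : Type) [CommRing 𝒪] [IsDomain 𝒪] [IsDiscreteValuationRing 𝒪]
      [IsAdicComplete (maximalIdeal 𝒪) 𝒪] [Finite (ResidueField 𝒪)] [CharZero 𝒪]
      (ρbar : ResidualGaloisRep (ResidueField 𝒪)) (Smin : Finset ℕ)
      (_h : ResidualHyp p 𝒪 ρbar Smin) (t : PType)
      (_ht : (t = .flat ∧ (GaloisRepAdic.ofResidualGaloisRep ρbar).IsFlatAt p) ∨
        (t = .sord ∧ (GaloisRepAdic.ofResidualGaloisRep ρbar).IsStrictOrdinaryAt p ∧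
          ¬ (GaloisRepAdic.ofResidualGaloisRep ρbar).IsFlatAt p))
      [NeZero (wilesLevel p t Smin Smin)]
      (P₀ : HeckePkg p 𝒪 ρbar t Smin Smin)
      (V₀ : Submodule 𝒪 (Additive (Gamma0 (wilesLevel p t Smin Smin)) →+ 𝒪)),
      IsMinPart P₀ V₀ → ∀ v ∈ V₀, IsCuspidal v := by
  intro p _ 𝒪 _ _ _ _ _ _ ρbar Smin h t _ _ P₀ V₀ hV₀ v hv
  have hN0 : 0 < wilesLevel p t Smin Smin := Nat.pos_of_ne_zero (NeZero.ne _)
  obtain ⟨ℓ, hℓ, hℓN, hℓS, c, -, hℓm, hc, hu⟩ :=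
    exists_nePrime p 𝒪 ρbar Smin h t Smin (le_refl _) h.hSmin P₀ _ hN0 ∅
  have : Fact ℓ.Prime := ⟨hℓ⟩
  have hmem : (ℓ, c) ∈ TsetOf P₀ := ⟨hℓ, hℓN, hℓS, hc⟩
  exact isLocPart_cuspidal' (isMid_Gamma0 _) hV₀ hℓN hℓm hmem hu v hv

end Fermat.Agent.S59.TW.H324
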