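import Mathlib
import Fermat.Agent.S59.TW.H324.CuspMin

/-!
# S59 / cell TW + row HARD cell HECKE: CUSP for every localisation at a package (helper324)

`isLocPart_cuspidal_of_pkg` : for a Hecke package `P` of ANY type `Σ ⊇ Smin`, ANY level structure
`Γ₁(M) ≤ K ≤ Γ₀(M)` (`M ≠ 0`) and ANY set `Uset`: a localisation `V` of `X_K(𝒪)` at
`(TsetOf P, Uset)` (`Aut.IsLocPart`) consists of cuspidal classes.

Covers `Aut.IsMinPart`, `Aut.IsQPart` (cell TW of S59) and `IA.Hecke.IsIAPart`, `IsIAMinPart`-type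
localisations (row HARD), which all unfold to `IsLocPart hK (TsetOf P) Uset V`.
-/

set_option autoImplicit false

open Polynomial IsLocalRing CongruenceSubgroup
open scoped MatrixGroups

namespace Fermat.Agent.S59.TW.H324

open Fermat.Agent.S59.Arch Fermat.Agent.S59.TW.H959 Fermat.Agent.S59.TW.H653
open Fermat.Agent.S59.TW.Aut

/-- **CUSP for a localisation at a package.** -/
theorem isLocPart_cuspidal_of_pkg (p : ℕ) [Fact p.Prime]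
    (𝒪 : Type) [CommRing 𝒪] [IsDomain 𝒪] [IsDiscreteValuationRing 𝒪]
    [IsAdicComplete (maximalIdeal 𝒪) 𝒪] [Finite (ResidueField 𝒪)] [CharZero 𝒪]
    (ρbar : ResidualGaloisRep (ResidueField 𝒪)) (Smin : Finset ℕ)
    (h : ResidualHyp p 𝒪 ρbar Smin) (t : PType) (Sig : Finset ℕ) (hsub : Smin ⊆ Sig)
    (hSig : ∀ q ∈ Sig, q.Prime)
    [NeZero (wilesLevel p t Smin Sig)]
    (P : HeckePkg p 𝒪 ρbar t Smin Sig)
    {M : ℕ} (hM : M ≠ 0) {K : Subgroup SL(2, ℤ)} (hK : IsMid M K) {Uset : Set (ℕ × 𝒪)}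
    {V : Submodule 𝒪 (Additive K →+ 𝒪)} (hV : IsLocPart hK (TsetOf P) Uset V) :
    ∀ v ∈ V, IsCuspidalK v := by
  have : NeZero M := ⟨hM⟩
  obtain ⟨ℓ, hℓ, hℓN, hℓS, c, -, hℓm, hc, hu⟩ :=
    exists_nePrime p 𝒪 ρbar Smin h t Sig hsub hSig P M (Nat.pos_of_ne_zero hM) ∅
  have : Fact ℓ.Prime := ⟨hℓ⟩
  have hℓM : ¬ ℓ ∣ M := by
    intro hd
    have h1 : ℓ ≡ 0 [MOD ℓ] := (Nat.modEq_zero_iff_dvd).mpr (dvd_refl _)
    have h2 : ℓ ≡ 1 [MOD ℓ] := hℓm.of_dvd hd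
    have h3 : (0 : ℕ) ≡ 1 [MOD ℓ] := h1.symm.trans h2
    have h4 : ℓ ∣ 1 := (Nat.modEq_zero_iff_dvd).mp h3.symm
    exact hℓ.one_lt.ne' (Nat.dvd_one.mp h4)
  have hmem : (ℓ, c) ∈ TsetOf P := ⟨hℓ, hℓN, hℓS, hc⟩
  exact isLocPart_cuspidal' hK hV hℓM hℓm hmem hu

/-- The parabolic form. -/
theorem isLocPart_parabolic_of_pkg (p : ℕ) [Fact p.Prime]
    (𝒪 : Type) [CommRing 𝒪] [IsDomain 𝒪] [IsDiscreteValuationRing 𝒪]
    [IsAdicComplete (maximalIdeal 𝒪) 𝒪] [Finite (ResidueField 𝒪)] [CharZero 𝒪]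
    (ρbar : ResidualGaloisRep (ResidueField 𝒪)) (Smin : Finset ℕ)
    (h : ResidualHyp p 𝒪 ρbar Smin) (t : PType) (Sig : Finset ℕ) (hsub : Smin ⊆ Sig)
    (hSig : ∀ q ∈ Sig, q.Prime)
    [NeZero (wilesLevel p t Smin Sig)]
    (P : HeckePkg p 𝒪 ρbar t Smin Sig)
    {M : ℕ} (hM : M ≠ 0) {K : Subgroup SL(2, ℤ)} (hK : IsMid M K) {Uset : Set (ℕ × 𝒪)}
    {V : Submodule 𝒪 (Additive K →+ 𝒪)} (hV : IsLocPart hK (TsetOf P) Uset V) :
    ∀ v ∈ V, ModularCurve.Period.IsParabolicHom K v :=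
  fun v hv => (isLocPart_cuspidal_of_pkg p 𝒪 ρbar Smin h t Sig hsub hSig P hM hK hV v hv).1

end Fermat.Agent.S59.TW.H324
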