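import Mathlib
import Fermat.Agent.S59.TW.H324.CuspMin

/-!
# S59 / cell TW, layer 3 (AUT), piece CUSP of MODQ (helper324)

`cuspQ` : the localisation `V` of `X_{K_Q}(𝒪)` at the maximal ideal of the package `P_Q` and of
`U_{q_j} - α_j` (`Aut.IsQPart`) consists of cuspidal classes; `parabolicQ` is the form
`hpar` of `H658.exists_heckeAction_isQPart`.
-/

set_option autoImplicit false

open Polynomial IsLocalRing CongruenceSubgroup
open scoped MatrixGroups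

namespace Fermat.Agent.S59.TW.H324

open Fermat.Agent.S59.Arch Fermat.Agent.S59.TW.H959 Fermat.Agent.S59.TW.H653
open Fermat.Agent.S59.TW.Aut
open Fermat.Agent.S29.H642 Fermat.Agent.S41.Spec

/-- **CUSP at the level `Q`.**  For a family `qv` of primes (for instance a Taylor–Wiles set),
the localisation `V` of `X_{K_Q}(𝒪)` (`Aut.IsQPart`) consists of cuspidal classes. -/
theorem cuspQ (p : ℕ) [Fact p.Prime]
    (𝒪 : Type) [CommRing 𝒪] [IsDomain 𝒪] [IsDiscreteValuationRing 𝒪]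
    [IsAdicComplete (maximalIdeal 𝒪) 𝒪] [Finite (ResidueField 𝒪)] [CharZero 𝒪]
    (ρbar : ResidualGaloisRep (ResidueField 𝒪)) (Smin : Finset ℕ)
    (h : ResidualHyp p 𝒪 ρbar Smin) (t : PType)
    [NeZero (wilesLevel p t Smin Smin)]
    {r : ℕ} (qv : Fin r → ℕ) (hq : ∀ j, (qv j).Prime)
    [NeZero (wilesLevel p t Smin (Smin ∪ Finset.univ.image qv))]
    (PQ : HeckePkg p 𝒪 ρbar t Smin (Smin ∪ Finset.univ.image qv)) (α : Fin r → 𝒪)
    (V : Submodule 𝒪 (XQ p t Smin qv 𝒪)) (hV : IsQPart PQ α V) :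
    ∀ v ∈ V, IsCuspidalK v := by
  have hb0 : bLevel (wilesLevel p t Smin Smin) qv ≠ 0 := by
    unfold bLevel
    exact mul_ne_zero (NeZero.ne _) (Finset.prod_ne_zero_iff.mpr fun j _ => (hq j).ne_zero)
  have : NeZero (bLevel (wilesLevel p t Smin Smin) qv) := ⟨hb0⟩
  have hSig : ∀ q ∈ Smin ∪ Finset.univ.image qv, q.Prime := by
    intro q hqm
    rcases Finset.mem_union.mp hqm with h1 | h1
    · exact h.hSmin q h1
    · obtain ⟨j, -, rfl⟩ := Finset.mem_image.mp h1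
      exact hq j
  obtain ⟨ℓ, hℓ, hℓN, hℓS, c, -, hℓm, hc, hu⟩ :=
    exists_nePrime p 𝒪 ρbar Smin h t (Smin ∪ Finset.univ.image qv) Finset.subset_union_left hSig
      PQ (bLevel (wilesLevel p t Smin Smin) qv) (Nat.pos_of_ne_zero hb0) ∅
  have : Fact ℓ.Prime := ⟨hℓ⟩
  have hℓb : ¬ ℓ ∣ bLevel (wilesLevel p t Smin Smin) qv := by
    intro hd
    have h1 : ℓ ≡ 0 [MOD ℓ] := (Nat.modEq_zero_iff_dvd).mpr (dvd_refl _)
    have h2 : ℓ ≡ 1 [MOD ℓ] := hℓm.of_dvd hd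
    have h3 : (0 : ℕ) ≡ 1 [MOD ℓ] := h1.symm.trans h2
    have h4 : ℓ ∣ 1 := (Nat.modEq_zero_iff_dvd).mp h3.symm
    exact hℓ.one_lt.ne' (Nat.dvd_one.mp h4)
  have hmem : (ℓ, c) ∈ TsetOf PQ := ⟨hℓ, hℓN, hℓS, hc⟩
  exact isLocPart_cuspidal' (isMid_KQ p (wilesLevel p t Smin Smin) qv) hV hℓb hℓm hmem hu

/-- The form `hpar` of `H658.exists_heckeAction_isQPart`. -/
theorem parabolicQ (p : ℕ) [Fact p.Prime]
    (𝒪 : Type) [CommRing 𝒪] [IsDomain 𝒪] [IsDiscreteValuationRing 𝒪]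
    [IsAdicComplete (maximalIdeal 𝒪) 𝒪] [Finite (ResidueField 𝒪)] [CharZero 𝒪]
    (ρbar : ResidualGaloisRep (ResidueField 𝒪)) (Smin : Finset ℕ)
    (h : ResidualHyp p 𝒪 ρbar Smin) (t : PType)
    [NeZero (wilesLevel p t Smin Smin)]
    {r : ℕ} (qv : Fin r → ℕ) (hq : ∀ j, (qv j).Prime)
    [NeZero (wilesLevel p t Smin (Smin ∪ Finset.univ.image qv))]
    (PQ : HeckePkg p 𝒪 ρbar t Smin (Smin ∪ Finset.univ.image qv)) (α : Fin r → 𝒪)
    (V : Submodule 𝒪 (XQ p t Smin qv 𝒪)) (hV : IsQPart PQ α V) :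
    ∀ v ∈ V, ModularCurve.Period.IsParabolicHom (KQ p (wilesLevel p t Smin Smin) qv) v :=
  fun v hv => (cuspQ p 𝒪 ρbar Smin h t qv hq PQ α V hV v hv).1

/-- The form `hcusp` of `H709.exists_esAct_TK` / `H658.exists_heckeAction_min` at the minimal
level. -/
theorem parabolicMin (p : ℕ) [Fact p.Prime]
    (𝒪 : Type) [CommRing 𝒪] [IsDomain 𝒪] [IsDiscreteValuationRing 𝒪]
    [IsAdicComplete (maximalIdeal 𝒪) 𝒪] [Finite (ResidueField 𝒪)] [CharZero 𝒪]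
    (ρbar : ResidualGaloisRep (ResidueField 𝒪)) (Smin : Finset ℕ)
    (h : ResidualHyp p 𝒪 ρbar Smin) (t : PType)
    [NeZero (wilesLevel p t Smin Smin)]
    (P₀ : HeckePkg p 𝒪 ρbar t Smin Smin)
    (V₀ : Submodule 𝒪 (Additive (Gamma0 (wilesLevel p t Smin Smin)) →+ 𝒪))
    (hV₀ : IsMinPart P₀ V₀) :
    ∀ v ∈ V₀, ModularCurve.Period.IsParabolicHom (Gamma0 (wilesLevel p t Smin Smin)) v := by
  intro v hv
  have hN0 : 0 < wilesLevel p t Smin Smin := Nat.pos_of_ne_zero (NeZero.ne _)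
  obtain ⟨ℓ, hℓ, hℓN, hℓS, c, -, hℓm, hc, hu⟩ :=
    exists_nePrime p 𝒪 ρbar Smin h t Smin (le_refl _) h.hSmin P₀ _ hN0 ∅
  have : Fact ℓ.Prime := ⟨hℓ⟩
  have hmem : (ℓ, c) ∈ TsetOf P₀ := ⟨hℓ, hℓN, hℓS, hc⟩
  exact (isLocPart_cuspidal' (isMid_Gamma0 _) hV₀ hℓN hℓm hmem hu v hv).1

end Fermat.Agent.S59.TW.H324
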